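import Fermat.Agent.S44.Const.Field

/-!
# S44 / Const / Glue / G2 : `ValZ A (ζ - 1) ϖ`, `ϖ ^ p = β ∈ K₀` ⟹ `β = unit · π ^ (p n)`
-/

set_option autoImplicit false

namespace Fermat.Agent.S44.Const

open Fermat.Agent.ES Fermat.Agent.SS Fermat.Agent.S33
open Fermat.Agent.Crux (A0)

/-- **(G2)** -/
theorem exists_unit_zpow_of_valZ {A : ValuationSubring Qb} {K₀ : IntermediateField ℚ Qb} {p : ℕ}
    {ζ ϖ : Qb} {ζ₀ β : K₀} {π : A0 K₀ A}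
    (hζ₀ : algebraMap K₀ Qb ζ₀ = ζ) (hπ : (π : K₀) = ζ₀ - 1) (hπ0 : π ≠ 0)
    (hϖ : ϖ ≠ 0) (hval : ValZ A (ζ - 1) ϖ) (hβ : ϖ ^ p = algebraMap K₀ Qb β) :
    ∃ (εβ : A0 K₀ A) (nβ : ℤ), IsUnit εβ ∧
      β = algebraMap (A0 K₀ A) K₀ εβ * algebraMap (A0 K₀ A) K₀ π ^ ((p : ℤ) * nβ) := by
  obtain ⟨n, h1, h2⟩ := hval
  have hπK : (π : K₀) ≠ 0 := fun h => hπ0 (Subtype.ext h)
  have hmap : algebraMap K₀ Qb (π : K₀) = ζ - 1 := by rw [hπ, map_sub, map_one, hζ₀]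
  have key : algebraMap K₀ Qb (β / (π : K₀) ^ ((p : ℤ) * n)) = (ϖ / (ζ - 1) ^ n) ^ p := by
    rw [map_div₀, map_zpow₀, hmap, ← hβ, div_pow, mul_comm, zpow_mul, zpow_natCast]
  have m1 : β / (π : K₀) ^ ((p : ℤ) * n) ∈ A0 K₀ A := by
    rw [ValuationSubring.mem_comap, key]
    exact pow_mem h1 p
  have m2 : (β / (π : K₀) ^ ((p : ℤ) * n))⁻¹ ∈ A0 K₀ A := by
    rw [ValuationSubring.mem_comap, map_inv₀, key, ← inv_pow]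
    exact pow_mem h2 p
  have hne : β / (π : K₀) ^ ((p : ℤ) * n) ≠ 0 := by
    intro h0
    rw [h0, map_zero] at key
    have h3 : ϖ / (ζ - 1) ^ n = 0 := by
      by_contra h4
      exact pow_ne_zero p h4 key.symm
    have h5 : ζ - 1 ≠ 0 := by
      rw [← hmap]
      exact (map_ne_zero _).2 hπK
    exact div_ne_zero hϖ (zpow_ne_zero _ h5) h3
  refine ⟨⟨_, m1⟩, n, ?_, ?_⟩
  · refine IsUnit.of_mul_eq_one ⟨_, m2⟩ (Subtype.ext ?_)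
    show β / (π : K₀) ^ ((p : ℤ) * n) * (β / (π : K₀) ^ ((p : ℤ) * n))⁻¹ = 1
    exact mul_inv_cancel₀ hne
  · show β = β / (π : K₀) ^ ((p : ℤ) * n) * (π : K₀) ^ ((p : ℤ) * n)
    rw [div_mul_cancel₀ _ (zpow_ne_zero _ hπK)]

end Fermat.Agent.S44.Const
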