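import Fermat.Agent.S44.Inst.Rep

/-!
# S44 / Const / Glue / G3 : `galKum` versus `gact` (hypothesis `hb` of `Cover.cover_main`)
-/

set_option autoImplicit false
set_option linter.unusedSectionVars false

open AlgebraicCurve ModularCurve

namespace Fermat.Agent.S44.Const

open Fermat.Agent.ES Fermat.Agent.SS Fermat.Agent.SS.GM2
open Fermat.Agent.S44.Cover (LL gact bc)

/-- `g y = y + n y₀` on Kummer classes, read on `q`-expansions. -/
theorem gact_of_galKum {N p : ℕ} [NeZero N] (f u : Dm N p) (g : GQ) (n : ℕ)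
    (h : galKum N p g (Kum.mk f) = Kum.mk f + n • Kum.mk u) :
    ∃ k : FF N, gact g (((f : (FF N)ˣ) : FF N) : LL)
      = (((f : (FF N)ˣ) : FF N) : LL) * (((u : (FF N)ˣ) : FF N) : LL) ^ n * (k : LL) ^ p := by
  have hfu0 : ((f : (FF N)ˣ) : FF N) ≠ 0 := (f : (FF N)ˣ).ne_zero
  have hu0 : ((u : (FF N)ˣ) : FF N) ≠ 0 := (u : (FF N)ˣ).ne_zero
  rw [← Kum.mk_pow, ← Kum.mk_mul, galKum_mk, Kum.mk_eq_mk_iff] at h
  obtain ⟨k, hk⟩ := h
  refine ⟨(k : FF N), ?_⟩
  have h2 : (k : FF N) ^ p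
      = galF N g ((f : (FF N)ˣ) : FF N)
        * (((f : (FF N)ˣ) : FF N) * ((u : (FF N)ˣ) : FF N) ^ n)⁻¹ := by
    have := congrArg (fun u : (FF N)ˣ => (u : FF N)) hk
    simpa using this
  have h3 : galF N g ((f : (FF N)ˣ) : FF N)
      = ((f : (FF N)ˣ) : FF N) * ((u : (FF N)ˣ) : FF N) ^ n * (k : FF N) ^ p := by
    rw [h2, mul_comm, inv_mul_cancel_right₀ (mul_ne_zero hfu0 (pow_ne_zero n hu0))]
  exact congrArg (fun x : FF N => (x : LL)) h3

end Fermat.Agent.S44.Const
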